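import Fermat.Agent.Frobenius.Global
import Fermat.Agent.Reducible.Cyclotomic
import Fermat.Prelude.Def_GaloisRep_ComplexConjugation

/-!
# The determinant of a representation with quadratic Frobenius relations is cyclotomic

If `r` is a continuous two-dimensional representation over a local domain of residue characteristic
`p`, not everywhere scalar, and `r(Frob_ℓ)` is killed by `X² - a_ℓ X + ℓ` for almost all `ℓ`, then
`det r` is the cyclotomic character and the characteristic polynomial of `r(Frob_ℓ)` is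
`X² - a_ℓ X + ℓ`.
-/

set_option autoImplicit false

namespace FLTAgent.DetCyclo

open IsLocalRing Matrix FLTAgent.Deformation Polynomial

local notation "QQb" => AlgebraicClosure ℚ
local notation "GG" => (AlgebraicClosure ℚ ≃ₐ[ℚ] AlgebraicClosure ℚ)

section ScalarMat

variable {R S : Type*} [CommRing R] [CommRing S]

/-- A scalar `2 × 2` matrix, entrywise. -/
def IsScalarMat (M : Matrix (Fin 2) (Fin 2) R) : Prop :=
  M 0 1 = 0 ∧ M 1 0 = 0 ∧ M 0 0 = M 1 1

variable {M M' : Matrix (Fin 2) (Fin 2) R}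

lemma IsScalarMat.mul (h : IsScalarMat M) (h' : IsScalarMat M') : IsScalarMat (M * M') := by
  obtain ⟨h1, h2, h3⟩ := h
  obtain ⟨h1', h2', h3'⟩ := h'
  simp [IsScalarMat, Matrix.mul_apply, Fin.sum_univ_two, h1, h2, h3, h1', h2', h3']

lemma IsScalarMat.of_mul_eq_one (h : IsScalarMat M) (he : M * M' = 1) : IsScalarMat M' := by
  obtain ⟨h1, h2, h3⟩ := h
  have e := fun i j => congrFun (congrFun he i) j
  have e00 := e 0 0
  have e01 := e 0 1
  have e10 := e 1 0
  have e11 := e 1 1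
  simp [Matrix.mul_apply, Fin.sum_univ_two, h1, h2, h3] at e00 e01 e10 e11
  exact ⟨by linear_combination M' 1 1 * e01 - M' 0 1 * e11,
    by linear_combination M' 1 1 * e10 - M' 1 0 * e11,
    by linear_combination M' 1 1 * e00 - M' 0 0 * e11⟩

lemma IsScalarMat.pow (h : IsScalarMat M) (k : ℕ) : IsScalarMat (M ^ k) := by
  induction k with
  | zero => simp [IsScalarMat]
  | succ k ih => rw [pow_succ]; exact ih.mul h

lemma IsScalarMat.map (h : IsScalarMat M) (f : R →+* S) : IsScalarMat (M.map f) := by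
  obtain ⟨h1, h2, h3⟩ := h
  simp [IsScalarMat, h1, h2, h3]

/-- A non-scalar matrix over a domain has only one monic quadratic relation. -/
lemma trace_det_of_relation [IsDomain R] (hM : ¬ IsScalarMat M) {a b : R}
    (h : M * M - a • M + b • 1 = 0) : M.trace = a ∧ M.det = b := by
  have e := fun i j => congrFun (congrFun h i) j
  have e00 := e 0 0
  have e01 := e 0 1
  have e10 := e 1 0
  have e11 := e 1 1
  simp [Matrix.mul_apply, Fin.sum_univ_two] at e00 e01 e10 e11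
  rw [Matrix.trace_fin_two, Matrix.det_fin_two]
  have ht : M 0 0 + M 1 1 = a := by
    by_contra hne
    have hd : M 0 0 + M 1 1 - a ≠ 0 := sub_ne_zero.mpr hne
    have h1 : (M 0 0 + M 1 1 - a) * M 0 1 = 0 := by linear_combination e01
    have h2 : (M 0 0 + M 1 1 - a) * M 1 0 = 0 := by linear_combination e10
    have h3 : (M 0 0 + M 1 1 - a) * (M 0 0 - M 1 1) = 0 := by linear_combination e00 - e11
    exact hM ⟨(mul_eq_zero.mp h1).resolve_left hd, (mul_eq_zero.mp h2).resolve_left hd,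
      sub_eq_zero.mp ((mul_eq_zero.mp h3).resolve_left hd)⟩
  exact ⟨ht, by linear_combination M 0 0 * ht - e00⟩

lemma exists_eq_smul_one (h : IsScalarMat M) : M = M 0 0 • (1 : Matrix (Fin 2) (Fin 2) R) := by
  obtain ⟨h1, h2, h3⟩ := h
  ext i j
  fin_cases i <;> fin_cases j <;> simp [h1, h2, h3]

end ScalarMat

section Cyclotomic

variable (p : ℕ) [hp : Fact p.Prime]

/-- `σ` acts on `p^n`-th roots of unity as the `c`-th power. -/
def CycloExponent (n : ℕ) (σ : GG) (c : ℕ) : Prop := ∀ ζ : QQb, ζ ^ p ^ n = 1 → σ ζ = ζ ^ c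

lemma exists_primitive_root_pow (n : ℕ) : ∃ ζ : QQb, IsPrimitiveRoot ζ (p ^ n) := by
  have : NeZero (p ^ n) := ⟨pow_ne_zero _ hp.out.ne_zero⟩
  have : NeZero ((p ^ n : ℕ) : QQb) := ⟨Nat.cast_ne_zero.mpr (pow_ne_zero _ hp.out.ne_zero)⟩
  exact HasEnoughRootsOfUnity.exists_primitiveRoot QQb (p ^ n)

lemma exists_cycloExponent (n : ℕ) (σ : GG) : ∃ c, CycloExponent p n σ c := by
  obtain ⟨ζ, hζ⟩ := exists_primitive_root_pow p n
  have : NeZero (p ^ n) := ⟨pow_ne_zero _ hp.out.ne_zero⟩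
  obtain ⟨c, -, hc⟩ := hζ.eq_pow_of_pow_eq_one (ξ := σ ζ) (by rw [← map_pow, hζ.pow_eq_one, map_one])
  refine ⟨c, fun η hη => ?_⟩
  obtain ⟨i, -, rfl⟩ := hζ.eq_pow_of_pow_eq_one hη
  rw [map_pow, ← hc, ← pow_mul, ← pow_mul, mul_comm]

variable {p}

omit hp in
lemma CycloExponent.mul {n : ℕ} {σ τ : GG} {c d : ℕ} (h : CycloExponent p n σ c)
    (h' : CycloExponent p n τ d) : CycloExponent p n (σ * τ) (c * d) := by
  intro ζ hζ
  rw [AlgEquiv.mul_apply, h' ζ hζ, h _ (by rw [← pow_mul, mul_comm, pow_mul, hζ, one_pow]),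
    ← pow_mul, mul_comm]

lemma CycloExponent.modEq {n : ℕ} {σ : GG} {c c' : ℕ} (h : CycloExponent p n σ c)
    (h' : CycloExponent p n σ c') : c ≡ c' [MOD p ^ n] := by
  obtain ⟨ζ, hζ⟩ := exists_primitive_root_pow p n
  have hu : IsUnit ζ := hζ.isUnit (pow_ne_zero _ hp.out.ne_zero)
  have he : hu.unit ^ c = hu.unit ^ c' :=
    Units.ext (by simpa using (h ζ hζ.pow_eq_one).symm.trans (h' ζ hζ.pow_eq_one))
  have h3 := pow_eq_pow_iff_modEq.mp he
  rwa [← orderOf_units, IsUnit.unit_spec, ← hζ.eq_orderOf] at h3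

/-- A Frobenius element at `ℓ ≠ p` raises `p`-power roots of unity to the `ℓ`-th power. -/
lemma cycloExponent_frobenius {ℓ : ℕ} (hℓ : ℓ.Prime) (hℓp : ℓ ≠ p) {V : ValuationSubring QQb}
    (hV : V.LiesOverPrime ℓ) {τ : GG} (hτ : V.IsFrobeniusAt τ ℓ) (n : ℕ) :
    CycloExponent p n τ ℓ := by
  intro ζ hζ
  have hpn := pow_ne_zero n hp.out.ne_zero
  have hζ0 : ζ ≠ 0 := fun h => by rw [h, zero_pow hpn] at hζ; exact zero_ne_one hζ
  have hint : ∀ η : QQb, η ^ p ^ n = 1 → η ∈ V := fun η hη => by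
    have hi : IsIntegral ℤ η :=
      IsIntegral.of_pow (pow_pos hp.out.pos n) (by rw [hη]; exact isIntegral_one)
    simpa using FLTAgent.Frobenius.integralClosure_le V ⟨η, hi⟩
  have h := ((FLTAgent.Frobenius.isFrobeniusAt_iff V τ ℓ).mp hτ).2 ζ (hint ζ hζ)
  have hη : (ζ⁻¹) ^ ℓ ∈ V := pow_mem (hint _ (by rw [inv_pow, hζ, inv_one])) ℓ
  have hne := Reducible.natCast_notMem_nonunits hℓ hV (m := p ^ n)
    (fun hd => hℓp ((Nat.prime_dvd_prime_iff_eq hℓ hp.out).mp (hℓ.dvd_of_dvd_pow hd)))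
  have h1 : τ ζ * (ζ⁻¹) ^ ℓ - 1 ∈ V.nonunits := by
    rw [show τ ζ * (ζ⁻¹) ^ ℓ - 1 = (τ ζ - ζ ^ ℓ) * (ζ⁻¹) ^ ℓ by
      rw [sub_mul, ← mul_pow, mul_inv_cancel₀ hζ0, one_pow]]
    rw [← SetLike.mem_coe, ← ValuationSubring.image_maximalIdeal] at h ⊢
    obtain ⟨u, hu, hu'⟩ := h
    exact ⟨u * ⟨_, hη⟩, Ideal.mul_mem_right _ _ hu, by rw [← hu']; rfl⟩
  have h2 := Reducible.eq_one_of_sub_one_mem_nonunits (p := p ^ n)
    (by rw [mul_pow, ← map_pow, hζ, map_one, one_mul, ← pow_mul, mul_comm ℓ, pow_mul, inv_pow, hζ,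
      inv_one, one_pow]) hne h1
  rwa [inv_pow, mul_inv_eq_one₀ (pow_ne_zero _ hζ0)] at h2

omit hp in
lemma CycloExponent.pow {n : ℕ} {σ : GG} {c : ℕ} (h : CycloExponent p n σ c) :
    ∀ k, CycloExponent p n (σ ^ k) (c ^ k)
  | 0 => fun ζ _ => by simp
  | k + 1 => by rw [pow_succ, pow_succ]; exact (h.pow k).mul h

lemma cycloExponent_complexConjugation (n : ℕ) :
    CycloExponent p n complexConjugation (p ^ n - 1) := by
  intro ζ hζ
  refine complexEmbedding.toRingHom.injective ?_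
  show complexEmbedding (complexConjugation ζ) = complexEmbedding (ζ ^ (p ^ n - 1))
  rw [complexEmbedding_complexConjugation, map_pow]
  have hz : complexEmbedding ζ ^ p ^ n = 1 := by rw [← map_pow, hζ, map_one]
  rw [← Complex.inv_eq_conj (Complex.norm_eq_one_of_pow_eq_one hz (pow_ne_zero _ hp.out.ne_zero))]
  refine inv_eq_of_mul_eq_one_right ?_
  rw [← pow_succ', Nat.sub_add_cancel (Nat.one_le_pow _ _ hp.out.pos), hz]

end Cyclotomic

section Det

variable {A : Type} [CommRing A] [IsLocalRing A] (p : ℕ) [hp : Fact p.Prime]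
  (hpA : (p : A) ∈ maximalIdeal A) (r : GG →* M2 A)

/-- `det r σ` is the value of the cyclotomic character at `σ`. -/
def DetCycloAt (σ : GG) : Prop :=
  ∀ n c : ℕ, CycloExponent p n σ c → (r σ).det - (c : A) ∈ maximalIdeal A ^ n

omit hp in
include hpA in
lemma natCast_sub_mem_of_modEq {n c c' : ℕ} (h : c ≡ c' [MOD p ^ n]) :
    (c : A) - (c' : A) ∈ maximalIdeal A ^ n := by
  obtain ⟨z, hz⟩ := (Nat.modEq_iff_dvd.mp h.symm)
  have h2 : (c : A) - (c' : A) = (p : A) ^ n * (z : A) := by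
    have := congrArg (Int.cast : ℤ → A) hz
    push_cast at this
    exact this
  rw [h2]
  exact Ideal.mul_mem_right _ _ (Ideal.pow_mem_pow hpA n)

include hpA in
lemma DetCycloAt.mul {σ τ : GG} (h : DetCycloAt p r σ) (h' : DetCycloAt p r τ) :
    DetCycloAt p r (σ * τ) := by
  intro n c hc
  obtain ⟨a, ha⟩ := exists_cycloExponent p n σ
  obtain ⟨b, hb⟩ := exists_cycloExponent p n τ
  have h1 := natCast_sub_mem_of_modEq p hpA ((ha.mul hb).modEq hc)
  rw [Nat.cast_mul] at h1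
  rw [map_mul, Matrix.det_mul,
    show (r σ).det * (r τ).det - (c : A) = (r τ).det * ((r σ).det - a) +
      a * ((r τ).det - b) + ((a : A) * b - c) by ring]
  exact add_mem (add_mem (Ideal.mul_mem_left _ _ (h n a ha)) (Ideal.mul_mem_left _ _ (h' n b hb))) h1

lemma eq_of_forall_sub_mem [IsHausdorff (maximalIdeal A) A] {x y : A}
    (h : ∀ n : ℕ, x - y ∈ maximalIdeal A ^ n) : x = y := by
  refine sub_eq_zero.mp (IsHausdorff.haus ‹_› _ fun n => ?_)
  rw [SModEq.sub_mem, smul_eq_mul, Ideal.mul_top, sub_zero]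
  exact h n

lemma exists_not_isScalarMat_map [IsHausdorff (maximalIdeal A) A] {M : M2 A}
    (h : ¬ IsScalarMat M) : ∃ N, ¬ IsScalarMat (M.map (Ideal.Quotient.mk (maximalIdeal A ^ N))) := by
  by_contra hall
  simp only [not_exists, not_not] at hall
  refine h ⟨eq_of_forall_sub_mem fun n => ?_, eq_of_forall_sub_mem fun n => ?_,
    eq_of_forall_sub_mem fun n => ?_⟩
  · simpa [Ideal.Quotient.eq_zero_iff_mem] using (hall n).1
  · simpa [Ideal.Quotient.eq_zero_iff_mem] using (hall n).2.1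
  · exact Ideal.Quotient.eq.mp (hall n).2.2

variable [IsDomain A] [IsHausdorff (maximalIdeal A) A] (hr : MatCts r) (S : Finset ℕ) (hpS : p ∈ S)
  (a : ℕ → A)
  (hquad : ∀ ℓ : ℕ, ℓ.Prime → ℓ ∉ S → ∀ V : ValuationSubring QQb, V.LiesOverPrime ℓ →
    ∀ τ : GG, V.IsFrobeniusAt τ ℓ → r τ * r τ - a ℓ • r τ + (ℓ : A) • 1 = 0)

include hpA hr hpS hquad in
lemma detCycloAt_of_not_scalar {σ : GG} (hσ : ¬ IsScalarMat (r σ)) : DetCycloAt p r σ := by
  intro n c hc
  obtain ⟨N, hN⟩ := exists_not_isScalarMat_map hσ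
  obtain ⟨ζ, hζ⟩ := exists_primitive_root_pow p n
  obtain ⟨L, hL, h1⟩ := hr (max n N)
  have := hL
  have : Algebra.IsAlgebraic ℚ QQb := AlgebraicClosure.isAlgebraic ℚ
  have : FiniteDimensional ℚ (IntermediateField.adjoin ℚ ({ζ} : Set QQb)) :=
    IntermediateField.adjoin.finiteDimensional (Algebra.IsAlgebraic.isAlgebraic ζ).isIntegral
  obtain ⟨ℓ, V, τ, k, hℓ, hℓS, hV, hτ, heq⟩ :=
    Frobenius.exists_frobenius_pow_eqOn (L ⊔ IntermediateField.adjoin ℚ ({ζ} : Set QQb)) σ S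
  have hfix : ∀ x ∈ L, ((τ ^ k)⁻¹ * σ) x = x := fun x hx => by
    rw [AlgEquiv.mul_apply,
      heq x ((le_sup_left : L ≤ L ⊔ IntermediateField.adjoin ℚ ({ζ} : Set QQb)) hx),
      ← AlgEquiv.mul_apply, inv_mul_cancel, AlgEquiv.one_apply]
  have hmem := h1 _ hfix
  have hmap : ∀ m, m ≤ max n N → (r σ).map (Ideal.Quotient.mk (maximalIdeal A ^ m)) =
      ((r τ) ^ k).map (Ideal.Quotient.mk (maximalIdeal A ^ m)) := by
    intro m hm
    have hσ' : r σ = r τ ^ k * r ((τ ^ k)⁻¹ * σ) := by rw [← map_pow, ← map_mul, mul_inv_cancel_left]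
    have hz : (r ((τ ^ k)⁻¹ * σ)).map (Ideal.Quotient.mk (maximalIdeal A ^ m)) = 1 := by
      rw [← Matrix.map_one (Ideal.Quotient.mk (maximalIdeal A ^ m)) (map_zero _) (map_one _)]
      ext i j
      rw [Matrix.map_apply, Matrix.map_apply, Ideal.Quotient.eq, ← Matrix.sub_apply]
      exact Ideal.pow_le_pow_right hm (hmem i j)
    rw [hσ', Matrix.map_mul, hz, mul_one]
  have hτns : ¬ IsScalarMat (r τ) := fun hs =>
    hN (by rw [hmap N (le_max_right _ _)]; exact (hs.pow k).map _)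
  obtain ⟨-, hdet⟩ := trace_det_of_relation hτns (hquad ℓ hℓ hℓS V hV τ hτ)
  have hck : CycloExponent p n σ (ℓ ^ k) := fun η hη => by
    have : NeZero (p ^ n) := ⟨pow_ne_zero _ hp.out.ne_zero⟩
    obtain ⟨i, -, rfl⟩ := hζ.eq_pow_of_pow_eq_one hη
    rw [heq _ (pow_mem ((le_sup_right : IntermediateField.adjoin ℚ ({ζ} : Set QQb) ≤ _)
      (IntermediateField.mem_adjoin_simple_self ℚ ζ)) i)]
    exact ((cycloExponent_frobenius hℓ (fun e => hℓS (by rw [e]; exact hpS)) hV hτ n).pow k) _ hη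
  have h2 := natCast_sub_mem_of_modEq p hpA (hck.modEq hc)
  have h3 : (r σ).det - (ℓ : A) ^ k ∈ maximalIdeal A ^ n := by
    rw [← Ideal.Quotient.eq, ← hdet, ← Matrix.det_pow, RingHom.map_det, RingHom.map_det]
    exact congrArg Matrix.det (hmap n (le_max_left _ _))
  rw [Nat.cast_pow] at h2
  simpa using add_mem h3 h2

variable (hns : ∃ σ, ¬ IsScalarMat (r σ))

include hpA hr hpS hquad hns in
/-- The determinant is the cyclotomic character. -/
theorem det_cyclo (σ : GG) : DetCycloAt p r σ := by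
  by_cases hσ : IsScalarMat (r σ)
  · obtain ⟨g, hg⟩ := hns
    have hg' : ¬ IsScalarMat (r g⁻¹) := fun h =>
      hg (h.of_mul_eq_one (by rw [← map_mul, inv_mul_cancel, map_one]))
    have hσg : ¬ IsScalarMat (r (σ * g)) := by
      intro h
      have hσ' : IsScalarMat (r σ⁻¹) :=
        hσ.of_mul_eq_one (by rw [← map_mul, mul_inv_cancel, map_one])
      exact hg (by simpa [← map_mul] using hσ'.mul h)
    simpa using (detCycloAt_of_not_scalar p hpA r hr S hpS a hquad hσg).mul p hpA r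
      (detCycloAt_of_not_scalar p hpA r hr S hpS a hquad hg')
  · exact detCycloAt_of_not_scalar p hpA r hr S hpS a hquad hσ

include hpA hr hpS hquad hns in
/-- Complex conjugation is odd. -/
theorem det_complexConjugation : (r complexConjugation).det = -1 := by
  refine eq_of_forall_sub_mem fun n => ?_
  have h := det_cyclo p hpA r hr S hpS a hquad hns complexConjugation n _
    (cycloExponent_complexConjugation n)
  rw [Nat.cast_sub (Nat.one_le_pow _ _ hp.out.pos), Nat.cast_pow, Nat.cast_one] at h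
  have := add_mem h (Ideal.pow_mem_pow hpA n)
  convert this using 1
  ring

include hpA hr hpS hquad hns in
/-- The Frobenius elements have trace `a ℓ` and determinant `ℓ`. -/
theorem trace_det_frobenius {ℓ : ℕ} (hℓ : ℓ.Prime) (hℓS : ℓ ∉ S) {V : ValuationSubring QQb}
    (hV : V.LiesOverPrime ℓ) {τ : GG} (hτ : V.IsFrobeniusAt τ ℓ) :
    (r τ).trace = a ℓ ∧ (r τ).det = (ℓ : A) := by
  have hℓp : ℓ ≠ p := fun e => hℓS (by rw [e]; exact hpS)
  have hdet : (r τ).det = (ℓ : A) := eq_of_forall_sub_mem fun n =>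
    det_cyclo p hpA r hr S hpS a hquad hns τ n ℓ (cycloExponent_frobenius hℓ hℓp hV hτ n)
  refine ⟨?_, hdet⟩
  by_cases hs : IsScalarMat (r τ)
  · have hM := exists_eq_smul_one hs
    set α := r τ 0 0
    have h := congrFun (congrFun (hquad ℓ hℓ hℓS V hV τ hτ) 0) 0
    rw [hM] at h hdet ⊢
    simp at h hdet ⊢
    obtain ⟨u, v, huv⟩ := (Nat.coprime_primes hℓ hp.out).mpr hℓp |>.isCoprime
    have hℓu : (ℓ : A) ∉ maximalIdeal A := by
      intro hm
      apply (maximalIdeal.isMaximal A).ne_top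
      rw [Ideal.eq_top_iff_one]
      have := congrArg (Int.cast : ℤ → A) huv
      push_cast at this
      rw [← this]
      exact add_mem (Ideal.mul_mem_left _ _ hm) (Ideal.mul_mem_left _ _ hpA)
    have hℓ0 : (ℓ : A) ≠ 0 := fun e => hℓu (e ▸ zero_mem _)
    have hα : α ≠ 0 := fun e => hℓ0 (by rw [← hdet, e]; ring)
    refine mul_left_cancel₀ hα ?_
    linear_combination h + hdet
  · exact (trace_det_of_relation hs (hquad ℓ hℓ hℓS V hV τ hτ)).1

end Det

section Adic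

variable {A : Type} [CommRing A] [IsLocalRing A] [IsDomain A] [IsHausdorff (maximalIdeal A) A]
  (p : ℕ) [hp : Fact p.Prime] (hpA : (p : A) ∈ maximalIdeal A) (ρ : GaloisRepAdic A)
  (S : Finset ℕ) (hpS : p ∈ S) (a : ℕ → A)
  (hquad : ∀ ℓ : ℕ, ℓ.Prime → ℓ ∉ S → ∀ V : ValuationSubring QQb, V.LiesOverPrime ℓ →
    ∀ τ : GG, V.IsFrobeniusAt τ ℓ → ρ.ρ τ * ρ.ρ τ - a ℓ • ρ.ρ τ + (ℓ : A) • 1 = 0)
  (hns : ∃ σ, ∀ c : A, ρ.ρ σ ≠ c • 1)

omit [IsDomain A] [IsHausdorff (maximalIdeal A) A] in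
include hquad in
lemma quad_matOf (b : Module.Basis (Fin 2) A ρ.V) (ℓ : ℕ) (hℓ : ℓ.Prime) (hℓS : ℓ ∉ S)
    (V : ValuationSubring QQb) (hV : V.LiesOverPrime ℓ) (τ : GG) (hτ : V.IsFrobeniusAt τ ℓ) :
    matOf ρ b τ * matOf ρ b τ - a ℓ • matOf ρ b τ + (ℓ : A) • 1 = 0 := by
  have h := congrArg (LinearMap.toMatrixAlgEquiv b) (hquad ℓ hℓ hℓS V hV τ hτ)
  simpa [matOf] using h

omit [IsDomain A] [IsHausdorff (maximalIdeal A) A] in
include hns in
lemma exists_not_scalar_matOf (b : Module.Basis (Fin 2) A ρ.V) :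
    ∃ σ, ¬ IsScalarMat (matOf ρ b σ) := by
  obtain ⟨σ, hσ⟩ := hns
  refine ⟨σ, fun h => hσ (matOf ρ b σ 0 0) ((LinearMap.toMatrixAlgEquiv b).injective ?_)⟩
  rw [map_smul, map_one]
  exact exists_eq_smul_one h

include hpA hpS hquad hns in
/-- The Frobenius characteristic polynomials are `X² - a_ℓ X + ℓ`. -/
theorem charpoly_frobenius {ℓ : ℕ} (hℓ : ℓ.Prime) (hℓS : ℓ ∉ S) {V : ValuationSubring QQb}
    (hV : V.LiesOverPrime ℓ) {τ : GG} (hτ : V.IsFrobeniusAt τ ℓ) :
    LinearMap.charpoly (ρ.ρ τ) = X ^ 2 - C (a ℓ) * X + C ((ℓ : A)) := by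
  obtain ⟨b⟩ := nonempty_basis ρ
  obtain ⟨ht, hd⟩ := trace_det_frobenius p hpA (matOf ρ b) (matCts_matOf ρ b) S hpS a
    (quad_matOf ρ S a hquad b) (exists_not_scalar_matOf ρ hns b) hℓ hℓS hV hτ
  rw [Frobenius.charpoly_eq_charpoly_matOf ρ b, Matrix.charpoly_fin_two, ht, hd]

include hpA hpS hquad hns in
/-- The determinant is the `p`-adic cyclotomic character. -/
theorem det_sub_mem (σ : GG) (n c : ℕ) (hc : CycloExponent p n σ c) :
    LinearMap.det (ρ.ρ σ) - (c : A) ∈ maximalIdeal A ^ n := by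
  obtain ⟨b⟩ := nonempty_basis ρ
  rw [← LinearMap.det_toMatrix b]
  exact det_cyclo p hpA (matOf ρ b) (matCts_matOf ρ b) S hpS a
    (quad_matOf ρ S a hquad b) (exists_not_scalar_matOf ρ hns b) σ n c hc

include hpA hpS hquad hns in
/-- The representation is odd. -/
theorem det_rho_complexConjugation : LinearMap.det (ρ.ρ complexConjugation) = -1 := by
  obtain ⟨b⟩ := nonempty_basis ρ
  rw [← LinearMap.det_toMatrix b]
  exact det_complexConjugation p hpA (matOf ρ b) (matCts_matOf ρ b) S hpS a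
    (quad_matOf ρ S a hquad b) (exists_not_scalar_matOf ρ hns b)

end Adic

end FLTAgent.DetCyclo
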